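import Fermat.Agent.AbelianHeight.HeightMap

/-!
# A lower bound for the height of a polynomial value

For `f = ∑ a i X ^ i` of degree `d` the height of `z` times `d` is at most the height of `f z` plus a
constant which only depends on the absolute heights of the coefficients.
-/

set_option autoImplicit false

noncomputable section

namespace FA.PropertyP

open NumberField Finset

theorem le_prod_of_one_le {ι : Type*} [DecidableEq ι] (s : Finset ι) (f : ι → ℝ)
    (hf : ∀ j ∈ s, 1 ≤ f j) {i : ι} (hi : i ∈ s) : f i ≤ ∏ j ∈ s, f j := by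
  rw [← Finset.mul_prod_erase s f hi]
  exact le_mul_of_one_le_right (zero_le_one.trans (hf i hi))
    (Finset.one_le_prod fun j hj => hf j (Finset.mem_of_mem_erase hj))

/-- The nonarchimedean inequality. -/
theorem place_bound {L : Type*} [Field L] [NumberField L] (v : FinitePlace L) (d : ℕ) (a : ℕ → L)
    (had : a d ≠ 0) (z : L) :
    max (v z) 1 ^ d ≤ max (v (∑ i ∈ range (d + 1), a i * z ^ i)) 1 * max (v (a d)⁻¹) 1 *
      (∏ i ∈ range d, max (v (a i / a d)) 1) ^ d := by
  set B := ∏ i ∈ range d, max (v (a i / a d)) 1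
  have hB1 : 1 ≤ B := Finset.one_le_prod fun i _ => le_max_right _ _
  have hB : ∀ i ∈ range d, v (a i / a d) ≤ B := fun i hi =>
    (le_max_left _ 1).trans (le_prod_of_one_le _ (fun i => max (v (a i / a d)) 1)
      (fun j _ => le_max_right _ _) hi)
  have hFE : 1 ≤ max (v (∑ i ∈ range (d + 1), a i * z ^ i)) 1 * max (v (a d)⁻¹) 1 :=
    one_le_mul_of_one_le_of_one_le (le_max_right _ _) (le_max_right _ _)
  rcases le_or_gt (v z) B with hz | hz
  · exact (pow_le_pow_left₀ (le_trans zero_le_one (le_max_right _ _)) (max_le hz hB1) d).trans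
      (le_mul_of_one_le_left (pow_nonneg (zero_le_one.trans hB1) _) hFE)
  have hz1 : 1 ≤ v z := hB1.trans hz.le
  refine le_trans ?_ (le_mul_of_one_le_right (zero_le_one.trans hFE) (one_le_pow₀ hB1))
  rw [max_eq_left hz1]
  have key : v z ^ d ≤ v ((∑ i ∈ range (d + 1), a i * z ^ i) * (a d)⁻¹) := by
    have e : (∑ i ∈ range (d + 1), a i * z ^ i) * (a d)⁻¹ =
        (∑ i ∈ range d, a i / a d * z ^ i) + z ^ d := by
      rw [Finset.sum_range_succ, add_mul, mul_right_comm (a d), mul_inv_cancel₀ had, one_mul,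
        Finset.sum_mul]
      congr 1
      exact Finset.sum_congr rfl fun i _ => by ring
    rw [e, ← map_pow]
    rcases eq_or_ne d 0 with rfl | hd
    · simp
    have hsum : v (∑ i ∈ range d, a i / a d * z ^ i) < v (z ^ d) := by
      obtain ⟨i, hi, hle⟩ := IsNonarchimedean.finset_image_add_of_nonempty
        (f := (v : L → ℝ)) (fun x y => FinitePlace.add_le v x y) (fun i => a i / a d * z ^ i)
        (t := range d) (nonempty_range_iff.2 hd)
      refine hle.trans_lt ?_
      rw [map_mul, map_pow, map_pow]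
      have hi' := Finset.mem_range.1 hi
      calc v (a i / a d) * v z ^ i ≤ B * v z ^ i :=
            mul_le_mul_of_nonneg_right (hB i hi) (pow_nonneg (apply_nonneg v _) _)
        _ < v z * v z ^ i := mul_lt_mul_of_pos_right hz (pow_pos (zero_lt_one.trans_le hz1) _)
        _ = v z ^ (i + 1) := (pow_succ' _ _).symm
        _ ≤ v z ^ d := pow_le_pow_right₀ hz1 hi'
    by_contra hlt
    rw [not_le] at hlt
    have h := FinitePlace.add_le v ((∑ i ∈ range d, a i / a d * z ^ i) + z ^ d)
      (-∑ i ∈ range d, a i / a d * z ^ i)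
    rw [add_neg_cancel_comm, FinitePlace.coe_apply v (-_), AbsoluteValue.map_neg,
      ← FinitePlace.coe_apply] at h
    exact absurd h (not_le.2 (max_lt hlt hsum))
  refine key.trans ?_
  rw [map_mul]
  exact mul_le_mul (le_max_left _ _) (le_max_left _ _) (apply_nonneg v _)
    (zero_le_one.trans (le_max_right _ _))

/-- The archimedean inequality. -/
theorem norm_bound (d : ℕ) (hd : 0 < d) (a : ℕ → ℂ) (had : a d ≠ 0) (z : ℂ) :
    max ‖z‖ 1 ^ d ≤ max ‖∑ i ∈ range (d + 1), a i * z ^ i‖ 1 * max ‖(a d)⁻¹‖ 1 *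
      ((∏ i ∈ range d, max ‖a i / a d‖ 1) ^ d * (2 * d : ℝ) ^ d) := by
  set B := ∏ i ∈ range d, max ‖a i / a d‖ 1
  have hB1 : 1 ≤ B := Finset.one_le_prod fun i _ => le_max_right _ _
  have hB : ∀ i ∈ range d, ‖a i / a d‖ ≤ B := fun i hi =>
    (le_max_left _ 1).trans (le_prod_of_one_le _ (fun i => max ‖a i / a d‖ 1)
      (fun j _ => le_max_right _ _) hi)
  have hd1 : (1 : ℝ) ≤ d := by exact_mod_cast hd
  have hFE : 1 ≤ max ‖∑ i ∈ range (d + 1), a i * z ^ i‖ 1 * max ‖(a d)⁻¹‖ 1 :=
    one_le_mul_of_one_le_of_one_le (le_max_right _ _) (le_max_right _ _)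
  have hBd : 1 ≤ B ^ d * (2 * d : ℝ) ^ d :=
    one_le_mul_of_one_le_of_one_le (one_le_pow₀ hB1) (one_le_pow₀ (by linarith))
  rcases le_or_gt ‖z‖ (2 * d * B) with hz | hz
  · refine (pow_le_pow_left₀ (zero_le_one.trans (le_max_right _ _))
      (max_le hz (one_le_mul_of_one_le_of_one_le (by linarith) hB1)) d).trans ?_
    rw [mul_pow, mul_comm]
    exact le_mul_of_one_le_left (zero_le_one.trans hBd) hFE
  have hz1 : 1 ≤ ‖z‖ := le_trans (one_le_mul_of_one_le_of_one_le (by linarith) hB1) hz.le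
  rw [max_eq_left hz1]
  have hsum : ‖∑ i ∈ range d, a i / a d * z ^ i‖ ≤ (d : ℝ) * (B * ‖z‖ ^ (d - 1)) := by
    refine (norm_sum_le _ _).trans ((Finset.sum_le_card_nsmul _ _ (B * ‖z‖ ^ (d - 1))
      fun i hi => ?_).trans (le_of_eq (by rw [card_range, nsmul_eq_mul])))
    rw [norm_mul, norm_pow]
    have hi' := Finset.mem_range.1 hi
    exact mul_le_mul (hB i hi) (pow_le_pow_right₀ hz1 (by omega))
      (pow_nonneg (norm_nonneg _) _) (zero_le_one.trans hB1)
  have hhalf : ‖∑ i ∈ range d, a i / a d * z ^ i‖ ≤ ‖z‖ ^ d / 2 := by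
    refine hsum.trans ?_
    rw [← mul_pow_sub_one (Nat.pos_iff_ne_zero.1 hd) ‖z‖]
    nlinarith [mul_le_mul_of_nonneg_right hz.le (pow_nonneg (norm_nonneg z) (d - 1))]
  have e : (∑ i ∈ range (d + 1), a i * z ^ i) * (a d)⁻¹ =
      (∑ i ∈ range d, a i / a d * z ^ i) + z ^ d := by
    rw [Finset.sum_range_succ, add_mul, mul_right_comm (a d), mul_inv_cancel₀ had, one_mul,
      Finset.sum_mul]
    congr 1
    exact Finset.sum_congr rfl fun i _ => by ring
  have hlow : ‖z‖ ^ d ≤ 2 * (max ‖∑ i ∈ range (d + 1), a i * z ^ i‖ 1 * max ‖(a d)⁻¹‖ 1) := by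
    have h1 : ‖z‖ ^ d ≤ ‖(∑ i ∈ range (d + 1), a i * z ^ i) * (a d)⁻¹‖ +
        ‖∑ i ∈ range d, a i / a d * z ^ i‖ := by
      rw [← norm_pow, e]
      calc ‖z ^ d‖ = ‖((∑ i ∈ range d, a i / a d * z ^ i) + z ^ d) -
            ∑ i ∈ range d, a i / a d * z ^ i‖ := by rw [add_sub_cancel_left]
        _ ≤ _ := norm_sub_le _ _
    have h2 : ‖(∑ i ∈ range (d + 1), a i * z ^ i) * (a d)⁻¹‖ ≤
        max ‖∑ i ∈ range (d + 1), a i * z ^ i‖ 1 * max ‖(a d)⁻¹‖ 1 := by
      rw [norm_mul]
      exact mul_le_mul (le_max_left _ _) (le_max_left _ _) (norm_nonneg _)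
        (zero_le_one.trans (le_max_right _ _))
    linarith
  refine hlow.trans ?_
  rw [mul_comm (2 : ℝ)]
  refine mul_le_mul_of_nonneg_left ?_ (zero_le_one.trans hFE)
  have h2d : (2 : ℝ) ≤ (2 * d : ℝ) ^ d :=
    le_trans (by linarith) (le_self_pow₀ (by linarith : (1 : ℝ) ≤ 2 * d) hd.ne')
  exact h2d.trans (le_mul_of_one_le_left (by linarith) (one_le_pow₀ hB1))

/-- The inequality in a number field. -/
theorem logHeight_bound {L : Type*} [Field L] [NumberField L] (d : ℕ) (hd : 0 < d) (a : ℕ → L)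
    (had : a d ≠ 0) (z : L) :
    (d : ℝ) * Height.logHeight₁ z ≤ Height.logHeight₁ (∑ i ∈ range (d + 1), a i * z ^ i) +
      Height.logHeight₁ (a d)⁻¹ + d * ∑ i ∈ range d, Height.logHeight₁ (a i / a d) +
      Module.finrank ℚ L * (d * Real.log (2 * d)) := by
  classical
  have hmul : Height.mulHeight₁ z ^ d ≤ Height.mulHeight₁ (∑ i ∈ range (d + 1), a i * z ^ i) *
      Height.mulHeight₁ (a d)⁻¹ * ((∏ i ∈ range d, Height.mulHeight₁ (a i / a d)) ^ d *
        ((2 * d : ℝ) ^ d) ^ Module.finrank ℚ L) := by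
    have hfin : ∀ y : L, (Function.mulSupport fun v : FinitePlace L => max (v y) 1).Finite := by
      intro y
      rcases eq_or_ne y 0 with rfl | hy
      · simp
      · refine (FinitePlace.hasFiniteMulSupport hy).subset fun v hv h1 => ?_
        exact hv (by simp [show v y = 1 from h1])
    set W := ∑ i ∈ range (d + 1), a i * z ^ i
    obtain ⟨T, hT⟩ : ∃ T : Finset (FinitePlace L),
        ∀ y ∈ insert z (insert W (insert (a d)⁻¹ ((range d).image fun i => a i / a d))),
          (Function.mulSupport fun v : FinitePlace L => max (v y) 1) ⊆ T := by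
      refine ⟨(insert z (insert W (insert (a d)⁻¹ ((range d).image fun i => a i / a d)))).biUnion
        fun y => (hfin y).toFinset, fun y hy v hv => ?_⟩
      exact Finset.mem_coe.2 (Finset.mem_biUnion.2 ⟨y, hy, (hfin y).mem_toFinset.2 hv⟩)
    have hH : ∀ y ∈ insert z (insert W (insert (a d)⁻¹ ((range d).image fun i => a i / a d))),
        Height.mulHeight₁ y =
          (∏ w : InfinitePlace L, max (w y) 1 ^ w.mult) * ∏ v ∈ T, max (v y) 1 := fun y hy => by
      rw [mulHeight₁_eq, finprod_eq_prod_of_mulSupport_subset _ (hT y hy)]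
    rw [hH z (by simp), hH W (by simp), hH (a d)⁻¹ (by simp),
      Finset.prod_congr rfl fun i hi => hH (a i / a d) (by
        simp only [Finset.mem_insert, Finset.mem_image]
        exact Or.inr (Or.inr (Or.inr ⟨i, hi, rfl⟩))),
      Finset.prod_mul_distrib, mul_pow, mul_pow]
    have hD : ((2 * d : ℝ) ^ d) ^ Module.finrank ℚ L =
        ∏ w : InfinitePlace L, ((2 * d : ℝ) ^ d) ^ w.mult := by
      rw [Finset.prod_pow_eq_pow_sum, InfinitePlace.sum_mult_eq]
    have hinf : (∏ w : InfinitePlace L, max (w z) 1 ^ w.mult) ^ d ≤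
        (∏ w : InfinitePlace L, max (w W) 1 ^ w.mult) *
          (∏ w : InfinitePlace L, max (w (a d)⁻¹) 1 ^ w.mult) *
          ((∏ i ∈ range d, ∏ w : InfinitePlace L, max (w (a i / a d)) 1 ^ w.mult) ^ d *
            ((2 * d : ℝ) ^ d) ^ Module.finrank ℚ L) := by
      rw [hD, Finset.prod_comm, ← Finset.prod_pow, ← Finset.prod_pow, ← Finset.prod_mul_distrib,
        ← Finset.prod_mul_distrib, ← Finset.prod_mul_distrib]
      refine Finset.prod_le_prod (fun w _ => by positivity) fun w _ => ?_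
      rw [Finset.prod_pow, pow_right_comm, pow_right_comm (∏ i ∈ range d, _), ← mul_pow, ← mul_pow,
        ← mul_pow]
      refine pow_le_pow_left₀ (by positivity) ?_ _
      have h := norm_bound d hd (fun i => w.embedding (a i)) (by simpa using had) (w.embedding z)
      simp only [← map_pow, ← map_mul, ← map_sum, ← map_inv₀, ← map_div₀,
        InfinitePlace.norm_embedding_eq] at h
      exact h
    have hfinite : (∏ v ∈ T, max (v z) 1) ^ d ≤
        (∏ v ∈ T, max (v W) 1) * (∏ v ∈ T, max (v (a d)⁻¹) 1) *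
          (∏ i ∈ range d, ∏ v ∈ T, max (v (a i / a d)) 1) ^ d := by
      rw [Finset.prod_comm, ← Finset.prod_pow, ← Finset.prod_pow, ← Finset.prod_mul_distrib,
        ← Finset.prod_mul_distrib]
      exact Finset.prod_le_prod (fun v _ => by positivity) fun v _ => place_bound v d a had z
    refine (mul_le_mul hinf hfinite (by positivity) (by positivity)).trans (le_of_eq ?_)
    ring
  have hpos : ∀ y : L, (0 : ℝ) < Height.mulHeight₁ y := fun y => Height.mulHeight₁_pos y
  have hd0 : (0 : ℝ) < 2 * d := by positivity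
  have h := Real.log_le_log (pow_pos (hpos z) d) hmul
  rw [Real.log_mul (mul_ne_zero (hpos _).ne' (hpos _).ne')
      (mul_ne_zero (pow_ne_zero _ (Finset.prod_ne_zero_iff.2 fun i _ => (hpos _).ne'))
        (pow_ne_zero _ (pow_ne_zero _ hd0.ne'))),
    Real.log_mul (hpos _).ne' (hpos _).ne',
    Real.log_mul (pow_ne_zero _ (Finset.prod_ne_zero_iff.2 fun i _ => (hpos _).ne'))
      (pow_ne_zero _ (pow_ne_zero _ hd0.ne')),
    Real.log_pow, Real.log_pow, Real.log_pow, Real.log_pow,
    Real.log_prod fun i _ => (hpos _).ne'] at h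
  simp only [← Height.logHeight₁_eq_log_mulHeight₁] at h
  linarith

end FA.PropertyP

end
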