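import Fermat.Agent.PropertyP.Bound
import Mathlib.Algebra.Polynomial.Eval.Defs
import Mathlib.FieldTheory.AlgebraicClosure

/-!
# Narkiewicz's property (P)

In an algebraic field with the Northcott property a polynomial of degree at least two maps no
infinite set onto a superset of itself and has only finitely many preperiodic points.
-/

set_option autoImplicit false
set_option linter.style.haveILetI false

noncomputable section

namespace FA.PropertyP

open NumberField Finset BiluTorus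

/-- **The lower bound for the absolute height of a polynomial value.** -/
theorem algHeight_bound (f : Polynomial ℂ) (hd : 0 < f.natDegree)
    (hf : ∀ i, IsAlgebraic ℚ (f.coeff i)) :
    ∃ C : ℝ, 0 ≤ C ∧ ∀ z : ℂ, IsAlgebraic ℚ z →
      (f.natDegree : ℝ) * algHeight z ≤ algHeight (f.eval z) + C := by
  set d := f.natDegree
  have hd1 : (1 : ℝ) ≤ 2 * d := by
    have : (1 : ℝ) ≤ d := by exact_mod_cast hd
    linarith
  refine ⟨algHeight (f.coeff d)⁻¹ + d * ∑ i ∈ range d, algHeight (f.coeff i / f.coeff d) +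
    d * Real.log (2 * d), add_nonneg (add_nonneg (algHeight_nonneg _) (mul_nonneg (Nat.cast_nonneg _)
      (Finset.sum_nonneg fun i _ => algHeight_nonneg _)))
      (mul_nonneg (Nat.cast_nonneg _) (Real.log_nonneg hd1)), fun z hz => ?_⟩
  obtain ⟨E, hE⟩ : ∃ E : IntermediateField ℚ ℂ,
      E = IntermediateField.adjoin ℚ (insert z (f.coeff '' Set.Iio (d + 1))) := ⟨_, rfl⟩
  haveI : FiniteDimensional ℚ E := by
    haveI := (((Set.finite_Iio (d + 1)).image f.coeff).insert z).to_subtype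
    rw [hE]
    refine IntermediateField.finiteDimensional_adjoin fun w hw => ?_
    rcases hw with rfl | ⟨i, -, rfl⟩
    exacts [hz.isIntegral, (hf i).isIntegral]
  haveI : NumberField E := {}
  have hzE : z ∈ E := hE ▸ IntermediateField.subset_adjoin ℚ _ (Set.mem_insert _ _)
  have hcE : ∀ i < d + 1, f.coeff i ∈ E := fun i hi =>
    hE ▸ IntermediateField.subset_adjoin ℚ _ (Set.mem_insert_of_mem _ ⟨i, hi, rfl⟩)
  obtain ⟨a, ha⟩ : ∃ a : ℕ → E, ∀ i < d + 1, (a i : ℂ) = f.coeff i :=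
    ⟨fun i => if h : i < d + 1 then ⟨f.coeff i, hcE i h⟩ else 0, fun i hi => by simp [hi]⟩
  obtain ⟨w, rfl⟩ : ∃ w : E, (w : ℂ) = z := ⟨⟨z, hzE⟩, rfl⟩
  have had : a d ≠ 0 := fun h => by
    have h1 := ha d (Nat.lt_succ_self d)
    rw [h] at h1
    exact Polynomial.leadingCoeff_ne_zero.2 (Polynomial.ne_zero_of_natDegree_gt hd) h1.symm
  have h := logHeight_bound d hd a had w
  rw [AbelianHeight.logHeight_eq_algHeight (IntermediateField.val E) w,
    AbelianHeight.logHeight_eq_algHeight (IntermediateField.val E) (a d)⁻¹,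
    AbelianHeight.logHeight_eq_algHeight (IntermediateField.val E)
      (∑ i ∈ range (d + 1), a i * w ^ i),
    Finset.sum_congr rfl fun i _ =>
      AbelianHeight.logHeight_eq_algHeight (IntermediateField.val E) (a i / a d),
    ← Finset.mul_sum] at h
  replace h : (d : ℝ) * ((Module.finrank ℚ E : ℝ) * algHeight (w : ℂ)) ≤
      (Module.finrank ℚ E : ℝ) * algHeight ((∑ i ∈ range (d + 1), a i * w ^ i : E) : ℂ) +
            (Module.finrank ℚ E : ℝ) * algHeight (((a d)⁻¹ : E) : ℂ) +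
          (d : ℝ) * ((Module.finrank ℚ E : ℝ) * ∑ i ∈ range d, algHeight ((a i / a d : E) : ℂ)) +
        (Module.finrank ℚ E : ℝ) * ((d : ℝ) * Real.log (2 * d)) := h
  have e1 : ((∑ i ∈ range (d + 1), a i * w ^ i : E) : ℂ) = f.eval (w : ℂ) := by
    rw [show ((∑ i ∈ range (d + 1), a i * w ^ i : E) : ℂ) =
      ∑ i ∈ range (d + 1), (a i : ℂ) * (w : ℂ) ^ i from map_sum (IntermediateField.val E) _ _ |>.trans
        (Finset.sum_congr rfl fun i _ => by simp), Polynomial.eval_eq_sum_range]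
    exact Finset.sum_congr rfl fun i hi => by rw [ha i (Finset.mem_range.1 hi)]
  have e2 : (((a d)⁻¹ : E) : ℂ) = (f.coeff d)⁻¹ := by
    rw [show (((a d)⁻¹ : E) : ℂ) = (a d : ℂ)⁻¹ from map_inv₀ (IntermediateField.val E) _,
      ha d (Nat.lt_succ_self d)]
  have e3 : ∀ i ∈ range d, ((a i / a d : E) : ℂ) = f.coeff i / f.coeff d := fun i hi => by
    rw [show ((a i / a d : E) : ℂ) = (a i : ℂ) / (a d : ℂ) from
      map_div₀ (IntermediateField.val E) _ _, ha d (Nat.lt_succ_self d),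
      ha i (Nat.lt_succ_of_lt (Finset.mem_range.1 hi))]
  rw [e1, e2, Finset.sum_congr rfl fun i hi => by rw [e3 i hi]] at h
  have hD : (0 : ℝ) < Module.finrank ℚ E := Nat.cast_pos.2 Module.finrank_pos
  refine le_of_mul_le_mul_left ?_ hD
  linarith

/-- **Property (P).** -/
theorem finite_of_subset_image (K : IntermediateField ℚ ℂ) (halg : ∀ x ∈ K, IsAlgebraic ℚ x)
    (hN : ∀ T : ℝ, {x : ℂ | x ∈ K ∧ algHeight x ≤ T}.Finite) (f : Polynomial ℂ)
    (hd : 2 ≤ f.natDegree) (hf : ∀ i, f.coeff i ∈ K) {X : Set ℂ} (hX : ∀ x ∈ X, x ∈ K)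
    (hsub : X ⊆ f.eval '' X) : X.Finite := by
  classical
  obtain ⟨C, hC0, hC⟩ := algHeight_bound f (by omega) fun i => halg _ (hf i)
  have hd2 : (2 : ℝ) ≤ (f.natDegree : ℝ) := by exact_mod_cast hd
  refine (hN C).subset fun w hw => ⟨hX w hw, ?_⟩
  by_contra hlt
  rw [not_le] at hlt
  have hfin : {y : ℂ | y ∈ X ∧ algHeight y ≤ algHeight w}.Finite :=
    (hN (algHeight w)).subset fun y hy => ⟨hX y hy.1, hy.2⟩
  set S := hfin.toFinset
  have hmemS : ∀ y, y ∈ S ↔ y ∈ X ∧ algHeight y ≤ algHeight w := fun y => hfin.mem_toFinset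
  have hSsub : S ⊆ S.image f.eval := fun y hy => by
    obtain ⟨hyX, hyh⟩ := (hmemS y).1 hy
    obtain ⟨z, hzX, rfl⟩ := hsub hyX
    refine Finset.mem_image.2 ⟨z, (hmemS z).2 ⟨hzX, ?_⟩, rfl⟩
    have h := hC z (halg z (hX z hzX))
    nlinarith [mul_le_mul_of_nonneg_right hd2 (algHeight_nonneg z)]
  have heq : S = S.image f.eval := Finset.eq_of_subset_of_card_le hSsub Finset.card_image_le
  obtain ⟨m, hm, hmax⟩ := Finset.exists_max_image S algHeight
    ⟨w, (hmemS w).2 ⟨hw, le_rfl⟩⟩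
  have hfm := hmax (f.eval m) (heq ▸ Finset.mem_image_of_mem _ hm)
  have h := hC m (halg m (hX m ((hmemS m).1 hm).1))
  have hwm := hmax w ((hmemS w).2 ⟨hw, le_rfl⟩)
  nlinarith [mul_le_mul_of_nonneg_right hd2 (algHeight_nonneg m)]

/-- **Finitely many preperiodic points.** -/
theorem finite_preperiodic (K : IntermediateField ℚ ℂ) (halg : ∀ x ∈ K, IsAlgebraic ℚ x)
    (hN : ∀ T : ℝ, {x : ℂ | x ∈ K ∧ algHeight x ≤ T}.Finite) (f : Polynomial ℂ)
    (hd : 2 ≤ f.natDegree) (hf : ∀ i, f.coeff i ∈ K) :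
    {x : ℂ | x ∈ K ∧ (Set.range fun n => f.eval^[n] x).Finite}.Finite := by
  classical
  obtain ⟨C, hC0, hC⟩ := algHeight_bound f (by omega) fun i => halg _ (hf i)
  have hd2 : (2 : ℝ) ≤ (f.natDegree : ℝ) := by exact_mod_cast hd
  refine (hN C).subset fun x hx => ⟨hx.1, ?_⟩
  obtain ⟨hxK, hfin⟩ := hx
  have horb : ∀ n, f.eval^[n] x ∈ K := fun n => by
    induction n with
    | zero => exact hxK
    | succ n ih =>
      rw [Function.iterate_succ_apply', Polynomial.eval_eq_sum_range]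
      exact sum_mem fun i _ => mul_mem (hf i) (pow_mem ih i)
  obtain ⟨m, hm, hmax⟩ := Finset.exists_max_image hfin.toFinset algHeight
    ⟨x, hfin.mem_toFinset.2 ⟨0, rfl⟩⟩
  obtain ⟨n, rfl⟩ := hfin.mem_toFinset.1 hm
  have hsucc := hmax (f.eval (f.eval^[n] x))
    (hfin.mem_toFinset.2 ⟨n + 1, Function.iterate_succ_apply' _ n x⟩)
  have hx0 := hmax x (hfin.mem_toFinset.2 ⟨0, rfl⟩)
  have h := hC _ (halg _ (horb n))
  nlinarith [mul_le_mul_of_nonneg_right hd2 (algHeight_nonneg (f.eval^[n] x))]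

end FA.PropertyP

end
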